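import Mathlib
import Fermat.Agent.S16.H75.Gamma0Hecke

/-!
# S29 / S42 (Program A), leaf (HECKE), part 1: the multiplier of a Hecke product

Let `W` be a function on the upper half plane with `W (γ • τ) = χ γ * W τ` for `γ` in a subgroup
`Γ ≤ SL(2, ℤ)`.  For a Hecke system `α i * γ = coc γ i * α (perm γ i)` the product
`W₁ τ = ∏ i, W (α i • τ)` satisfies `W₁ (γ • τ) = (∏ i, χ (coc γ i)) * W₁ τ`.  If `χ = e ∘ ψ` for an
additive character `e` and a homomorphism `ψ : Γ → A`, the new multiplier is `e ∘ (heckeOp ψ)`: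
this is literally the definition of the Hecke operator on `Hom(Γ, A)`.

Specialised to the operators `heckeHom N ℓ` of `S16/H75` (`T_ℓ` resp. `U_ℓ`): the function
`heckeProd N ℓ W` (for `ℓ ∤ N`: `τ ↦ W (ℓ τ) * ∏_{j < ℓ} W ((τ + j) / ℓ)`) has multiplier
`e ∘ heckeHom N ℓ A ψ`.
-/

set_option autoImplicit false

open UpperHalfPlane CongruenceSubgroup
open scoped MatrixGroups

namespace Fermat.Agent.S29.H15

open Fermat.Agent.S16.H75

/-- **Multiplier of a product over a system of representatives**, generic form. -/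
theorem prod_act_smul {Γ : Subgroup SL(2, ℤ)} {ι : Type*} [Fintype ι] (act : ι → ℍ → ℍ)
    (coc : Γ → ι → Γ) (perm : Γ → ι ≃ ι)
    (hrel : ∀ (γ : Γ) (i : ι) (τ : ℍ),
      act i ((γ : SL(2, ℤ)) • τ) = ((coc γ i : Γ) : SL(2, ℤ)) • act (perm γ i) τ)
    {χ : Γ → ℂ} {W : ℍ → ℂ} (hW : ∀ (γ : Γ) (τ : ℍ), W ((γ : SL(2, ℤ)) • τ) = χ γ * W τ)
    (γ : Γ) (τ : ℍ) :
    ∏ i, W (act i ((γ : SL(2, ℤ)) • τ)) = (∏ i, χ (coc γ i)) * ∏ i, W (act i τ) := by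
  simp only [hrel, hW, Finset.prod_mul_distrib]
  rw [Equiv.prod_comp (perm γ) (fun i => W (act i τ))]

theorem addChar_map_sum {A M : Type*} [AddCommMonoid A] [CommMonoid M] (e : AddChar A M)
    {ι : Type*} (s : Finset ι) (f : ι → A) : e (∑ i ∈ s, f i) = ∏ i ∈ s, e (f i) := by
  classical
  induction s using Finset.induction_on with
  | empty => simp
  | insert a s ha ih =>
    rw [Finset.sum_insert ha, Finset.prod_insert ha, AddChar.map_add_eq_mul, ih]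

/-- **Multiplier of a Hecke product**: if `W` has multiplier `e ∘ ψ`, then `∏ i, W (α i • τ)` has
multiplier `e ∘ heckeOp ψ`. -/
theorem prod_smul_heckeSys {Γ : Subgroup SL(2, ℤ)} {ι : Type*} [Fintype ι]
    {α : ι → Matrix (Fin 2) (Fin 2) ℤ} (h : IsHeckeSys Γ α) (a : ι → GL (Fin 2) ℝ)
    (ha : ∀ i, ((a i : GL (Fin 2) ℝ) : Matrix (Fin 2) (Fin 2) ℝ) =
      (α i).map (Int.castRingHom ℝ))
    {A : Type*} [AddCommGroup A] (e : AddChar A ℂ) (ψ : Additive Γ →+ A) {W : ℍ → ℂ}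
    (hW : ∀ (γ : Γ) (τ : ℍ), W ((γ : SL(2, ℤ)) • τ) = e (ψ (Additive.ofMul γ)) * W τ)
    (γ : Γ) (τ : ℍ) :
    ∏ i, W (a i • ((γ : SL(2, ℤ)) • τ)) =
      e (h.heckeOp ψ (Additive.ofMul γ)) * ∏ i, W (a i • τ) := by
  have hrel : ∀ (γ : Γ) (i : ι) (τ : ℍ), a i • ((γ : SL(2, ℤ)) • τ) =
      ((h.coc γ i : Γ) : SL(2, ℤ)) • (a (h.permEquiv γ i) • τ) := fun γ i τ =>
    act_rel_of_matrix_rel (gl_rel_of_int_rel (ha i) (ha _) (h.spec γ i)) τ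
  rw [prod_act_smul (fun i z => a i • z) h.coc h.permEquiv hrel hW γ τ, h.heckeOp_apply,
    addChar_map_sum]

/-- The product of the translates of `W` by the representatives of `T_ℓ` (`ℓ ∤ N`) resp. `U_ℓ`
(`ℓ ∣ N`). -/
noncomputable def heckeProd (N : ℕ) (ℓ : Nat.Primes) (W : ℍ → ℂ) : ℍ → ℂ :=
  open Classical in
  if (ℓ : ℕ) ∣ N then fun τ => ∏ i, W (famU ℓ i • τ) else fun τ => ∏ i, W (famT ℓ i • τ)

theorem heckeProd_of_dvd {N : ℕ} {ℓ : Nat.Primes} (h : (ℓ : ℕ) ∣ N) (W : ℍ → ℂ) (τ : ℍ) :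
    heckeProd N ℓ W τ = ∏ i, W (famU ℓ i • τ) := by
  rw [heckeProd, if_pos h]

theorem heckeProd_of_not_dvd {N : ℕ} {ℓ : Nat.Primes} (h : ¬ (ℓ : ℕ) ∣ N) (W : ℍ → ℂ) (τ : ℍ) :
    heckeProd N ℓ W τ = ∏ i, W (famT ℓ i • τ) := by
  rw [heckeProd, if_neg h]

/-- `T_ℓ`-product, explicitly: `W (ℓ τ) * ∏_{j < ℓ} W ((τ + j) / ℓ)`. -/
theorem heckeProd_of_not_dvd' {N : ℕ} {ℓ : Nat.Primes} (h : ¬ (ℓ : ℕ) ∣ N) (W : ℍ → ℂ) (τ : ℍ) :
    heckeProd N ℓ W τ = W (ModularForm.heckeDiagMatrix ℓ • τ) *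
      ∏ j : Fin ℓ, W (ModularForm.heckeMatrix ℓ j • τ) := by
  rw [heckeProd_of_not_dvd h, Fintype.prod_option]
  rfl

/-- **(HECKE), multiplier part**: if `W` has multiplier `e ∘ ψ` on `Γ₀(N)`, then `heckeProd N ℓ W`
has multiplier `e ∘ heckeHom N ℓ A ψ`. -/
theorem heckeProd_smul (N : ℕ) (ℓ : Nat.Primes) {A : Type*} [AddCommGroup A] (e : AddChar A ℂ)
    (ψ : Additive (Gamma0 N) →+ A) {W : ℍ → ℂ}
    (hW : ∀ (γ : Gamma0 N) (τ : ℍ),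
      W ((γ : SL(2, ℤ)) • τ) = e (ψ (Additive.ofMul γ)) * W τ)
    (γ : Gamma0 N) (τ : ℍ) :
    heckeProd N ℓ W ((γ : SL(2, ℤ)) • τ) =
      e (heckeHom N ℓ A ψ (Additive.ofMul γ)) * heckeProd N ℓ W τ := by
  by_cases h : (ℓ : ℕ) ∣ N
  · rw [heckeProd_of_dvd h, heckeProd_of_dvd h, heckeHom_of_dvd h]
    exact prod_smul_heckeSys (isHeckeSys_U ℓ.2 h) (famU ℓ)
      (fun i => coe_famU_eq_map ℓ.2.ne_zero i) e ψ hW γ τ
  · rw [heckeProd_of_not_dvd h, heckeProd_of_not_dvd h, heckeHom_of_not_dvd h]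
    exact prod_smul_heckeSys (isHeckeSys_T ℓ.2 h) (famT ℓ)
      (fun i => coe_famT_eq_map ℓ.2.ne_zero i) e ψ hW γ τ

end Fermat.Agent.S29.H15
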