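import Mathlib

/-!
# S29 / S42 (Program A), leaf (HECKE), part 2a: norm = product over a full set of embeddings

`L/K` finite separable of degree `n`; `E` any field and `σ i : L → E` (`i` in a type with `n`
elements) pairwise distinct ring homomorphisms with one common restriction `b : K → E`.  Then
`b (N_{L/K} x) = ∏ i, σ i x`.  (Mathlib's `Algebra.norm_eq_prod_embeddings` after passing to an
algebraic closure of `E`.)
-/

set_option autoImplicit false

namespace Fermat.Agent.S29.H15

/-- Norm = product over `[L : K]` pairwise distinct `K`-embeddings into an arbitrary field. -/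
theorem norm_eq_prod_of_injective {K L E : Type*} [Field K] [Field L] [Field E] [Algebra K L]
    [Algebra K E] [FiniteDimensional K L] [Algebra.IsSeparable K L] {ι : Type*} [Fintype ι]
    (σ : ι → (L →ₐ[K] E)) (hσ : Function.Injective σ)
    (hcard : Fintype.card ι = Module.finrank K L) (x : L) :
    algebraMap K E (Algebra.norm K x) = ∏ i, σ i x := by
  classical
  let τ : ι → (L →ₐ[K] AlgebraicClosure E) := fun i =>
    (IsScalarTower.toAlgHom K E (AlgebraicClosure E)).comp (σ i)
  have hτ : Function.Injective τ := by
    intro i j hij
    apply hσ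
    ext y
    have h := DFunLike.congr_fun hij y
    exact (algebraMap E (AlgebraicClosure E)).injective h
  have hbij : Function.Bijective τ :=
    (Fintype.bijective_iff_injective_and_card τ).mpr ⟨hτ, by rw [hcard, AlgHom.card]⟩
  have h1 := Algebra.norm_eq_prod_embeddings K (AlgebraicClosure E) x
  have h2 : ∏ s : L →ₐ[K] AlgebraicClosure E, s x = ∏ i, τ i x :=
    (Fintype.prod_bijective τ hbij _ _ (fun i => rfl)).symm
  apply (algebraMap E (AlgebraicClosure E)).injective
  rw [map_prod, ← IsScalarTower.algebraMap_apply, h1, h2]
  rfl

/-- Ring-homomorphism form: the `σ i : L →+* E` restrict to the same `b : K →+* E`. -/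
theorem norm_eq_prod_of_ringHom {K L E : Type*} [Field K] [Field L] [Field E] [Algebra K L]
    [FiniteDimensional K L] [Algebra.IsSeparable K L] (b : K →+* E) {ι : Type*} [Fintype ι]
    (σ : ι → (L →+* E)) (hcomm : ∀ i c, σ i (algebraMap K L c) = b c)
    (hσ : Function.Injective σ) (hcard : Fintype.card ι = Module.finrank K L) (x : L) :
    b (Algebra.norm K x) = ∏ i, σ i x := by
  letI : Algebra K E := b.toAlgebra
  let σ' : ι → (L →ₐ[K] E) := fun i => { σ i with commutes' := fun c => hcomm i c }
  have hσ' : Function.Injective σ' := by
    intro i j hij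
    apply hσ
    ext y
    exact DFunLike.congr_fun hij y
  exact norm_eq_prod_of_injective σ' hσ' hcard x

end Fermat.Agent.S29.H15
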