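import Mathlib
import Fermat.Agent.S24.H49.FinLocal
import Fermat.Agent.S37.H87.HeckeDegree
import Fermat.Agent.S41.H15.BetaAlpha
import Fermat.Agent.S29.H15.HeckeChar
import Fermat.Agent.S29.H15.NormEmb

/-!
# S29 / S42 (Program A), leaf (HECKE), part 2b: the norm along `α` in analytic form

The Prelude's Hecke operator on `Pic⁰` is `α_* ∘ β^*` (`α : F_N → F_{Nℓ}` the inclusion,
`β : q ↦ q^ℓ`), so `T_ℓ (div u) = div (N_α (β u))`.  This file computes the norm along `α`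
analytically (`ℓ` prime, `ℓ ∤ N`):

* `embAt_norm_alpha` : the Taylor expansion at any point of `Θ(N_α g)` is the product of the
  Taylor expansions of the translates `Θ(g) ∘ r_k`, `r_k` running through representatives of
  `Γ₀(Nℓ) \ Γ₀(N)`  (`[F_{Nℓ} : α F_N] = ℓ + 1` pairwise distinct embeddings into `ℂ((t))`);
* `Theta_norm_alpha` : the same as an identity of functions on the upper half plane;
* `Theta_norm_beta`  : **(H-norm)** `Θ(N_α(β u)) = heckeProd N ℓ (Θ u)`, i.e.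
  `Θ(N_α(β u))(τ) = Θ(u)(ℓ τ) ∏_{j<ℓ} Θ(u)((τ + j)/ℓ)`;
* `heckeProd_pow`    : **(H-root)** a holomorphic `p`-th root `W` of `c Θ(u)` gives the
  holomorphic `p`-th root `heckeProd N ℓ W` of `c^(ℓ+1) Θ(N_α(β u))`.

Together with `heckeProd_smul` (`HeckeChar.lean`): if `(u, W)` is a Kummer datum with multiplier
`e ∘ ψ`, then `(N_α(β u), heckeProd W)` is one with multiplier `e ∘ heckeHom N ℓ ψ`.
-/

set_option autoImplicit false

open UpperHalfPlane CongruenceSubgroup ModularCurve AlgebraicCurve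
open scoped MatrixGroups Manifold

noncomputable section

namespace Fermat.Agent.S29.H15

open Fermat.Agent.S24 Fermat.Agent.S24.H49 Fermat.Agent.S16.H75 Fermat.Agent.S41.H41
  Fermat.Agent.S41.H15

variable (N ℓ : ℕ) [NeZero N] [NeZero ℓ]

/-- `d ∣ N` as a divisor of `N ℓ`. -/
def dInc (d : N.divisors) : (N * ℓ).divisors :=
  ⟨(d : ℕ), Nat.mem_divisors.mpr
    ⟨Dvd.dvd.mul_right (Nat.dvd_of_mem_divisors d.2) ℓ, NeZero.ne (N * ℓ)⟩⟩

/-- `ℓ d` as a divisor of `N ℓ`, for `d ∣ N`. -/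
def dMul (d : N.divisors) : (N * ℓ).divisors :=
  ⟨ℓ * (d : ℕ), Nat.mem_divisors.mpr
    ⟨by rw [mul_comm]; exact Nat.mul_dvd_mul_right (Nat.dvd_of_mem_divisors d.2) ℓ,
      NeZero.ne (N * ℓ)⟩⟩

theorem alpha_jF (d : N.divisors) :
    heckeAlphaBar Kbar N ℓ (jF N d) = jF (N * ℓ) (dInc N ℓ d) :=
  Subtype.ext rfl

theorem beta_jF (d : N.divisors) :
    heckeBetaBar Kbar N ℓ (jF N d) = jF (N * ℓ) (dMul N ℓ d) := by
  apply Subtype.ext
  show qExpand Kbar ℓ (coeffEmb Kbar (qExpand ℚ (d : ℕ) jq))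
    = coeffEmb Kbar (qExpand ℚ (ℓ * (d : ℕ)) jq)
  have h : ∀ (e : ℕ) [NeZero e], coeffEmb Kbar (qExpand ℚ e jq) = qExpand Kbar e (jqModC Kbar) :=
    fun e _ => coeffMap_jqNModC (algebraMap ℚ Kbar) e
  rw [h (d : ℕ), h (ℓ * (d : ℕ)), qExpand_qExpand]

theorem alpha_evF (P : MvPolynomial (N.divisors) Kbar) :
    heckeAlphaBar Kbar N ℓ (evF N P) = evF (N * ℓ) (MvPolynomial.rename (dInc N ℓ) P) := by
  have h : (heckeAlphaBar Kbar N ℓ).comp (evF N)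
      = (evF (N * ℓ)).comp (MvPolynomial.rename (dInc N ℓ)) := by
    apply MvPolynomial.algHom_ext
    intro d
    simp [evF, alpha_jF]
  exact DFunLike.congr_fun h P

theorem beta_evF (P : MvPolynomial (N.divisors) Kbar) :
    heckeBetaBar Kbar N ℓ (evF N P) = evF (N * ℓ) (MvPolynomial.rename (dMul N ℓ) P) := by
  have h : (heckeBetaBar Kbar N ℓ).comp (evF N)
      = (evF (N * ℓ)).comp (MvPolynomial.rename (dMul N ℓ)) := by
    apply MvPolynomial.algHom_ext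
    intro d
    simp [evF, beta_jF]
  exact DFunLike.congr_fun h P

theorem Theta_rename_dInc (P : MvPolynomial (N.divisors) Kbar) :
    Theta (N * ℓ) (MvPolynomial.rename (dInc N ℓ) P) = Theta N P := by
  show MvPolynomial.eval₂ _ _ (MvPolynomial.rename (dInc N ℓ) P) = MvPolynomial.eval₂ _ _ P
  rw [MvPolynomial.eval₂_rename]
  rfl

theorem levelMul_levelMul (d e : ℕ) [NeZero d] [NeZero e] (τ : ℍ) :
    levelMul d (levelMul e τ) = levelMul (e * d) τ := by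
  apply UpperHalfPlane.ext
  show (d : ℂ) * ((e : ℂ) * τ) = ((e * d : ℕ) : ℂ) * τ
  push_cast
  ring

theorem Jd_dMul (d : N.divisors) (τ : ℍ) :
    Jd ((dMul N ℓ d : (N * ℓ).divisors) : ℕ) τ = Jd (d : ℕ) (levelMul ℓ τ) := by
  show Jfun (levelMul (ℓ * (d : ℕ)) τ) = Jfun (levelMul (d : ℕ) (levelMul ℓ τ))
  rw [levelMul_levelMul]

theorem Theta_rename_dMul (P : MvPolynomial (N.divisors) Kbar) (τ : ℍ) :
    Theta (N * ℓ) (MvPolynomial.rename (dMul N ℓ) P) τ = Theta N P (levelMul ℓ τ) := by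
  induction P using MvPolynomial.induction_on with
  | C a =>
    rw [MvPolynomial.rename_C, Theta_C, Theta_C]
  | add p q hp hq =>
    rw [map_add, map_add, map_add, Pi.add_apply, Pi.add_apply, hp, hq]
  | mul_X p d hp =>
    rw [map_mul, map_mul, map_mul, Pi.mul_apply, Pi.mul_apply, hp, MvPolynomial.rename_X,
      Theta_X, Theta_X, Jd_dMul]

/-! ### The Taylor embeddings attached to elements of `SL(2, ℤ)` -/

variable {N ℓ}

/-- The holomorphic function `τ ↦ Θ(P)(g τ)`. -/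
def thetaHol (M : ℕ) (g : SL(2, ℤ)) : MvPolynomial (M.divisors) Kbar →+* holSubring :=
  translHol M (QuotientGroup.mk g⁻¹ : XX M)

theorem thetaHol_apply (M : ℕ) [NeZero M] (g : SL(2, ℤ)) (P : MvPolynomial (M.divisors) Kbar)
    (τ : ℍ) : (thetaHol M g P : ℍ → ℂ) τ = Theta M P (g • τ) := by
  show transl M (QuotientGroup.mk g⁻¹ : XX M) P τ = _
  rw [transl_mk, inv_inv]

/-- The embedding `F_M → ℂ((t))`: Taylor expansion at `τ₀` of `Θ(·) ∘ g`. -/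
def embAt (M : ℕ) [NeZero M] (τ₀ : ℍ) (g : SL(2, ℤ)) : FF M →+* LaurentSeries ℂ :=
  phiFin M τ₀ (QuotientGroup.mk g⁻¹ : XX M)

theorem embAt_evF (M : ℕ) [NeZero M] (τ₀ : ℍ) (g : SL(2, ℤ))
    (P : MvPolynomial (M.divisors) Kbar) :
    embAt M τ₀ g (evF M P) = laurentHom τ₀ (thetaHol M g P) :=
  phiFin_evF' M τ₀ _ P

theorem laurentHom_thetaHol_eq_zero_iff (M : ℕ) [NeZero M] (τ₀ : ℍ) (g : SL(2, ℤ))
    (P : MvPolynomial (M.divisors) Kbar) :
    laurentHom τ₀ (thetaHol M g P) = 0 ↔ evF M P = 0 :=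
  PhiFin_eq_zero_iff M τ₀ _ P

/-- Along `α`, all the embeddings attached to elements of `Γ₀(N)` restrict to the same one. -/
theorem embAt_alpha (τ₀ : ℍ) (r : Gamma0 N) (c : FF N) :
    embAt (N * ℓ) τ₀ (r : SL(2, ℤ)) (heckeAlphaBar Kbar N ℓ c) = embAt N τ₀ 1 c := by
  obtain ⟨P, Q, -, rfl⟩ := evF_frac N c
  have key : ∀ P : MvPolynomial (N.divisors) Kbar,
      thetaHol (N * ℓ) (r : SL(2, ℤ)) (MvPolynomial.rename (dInc N ℓ) P) = thetaHol N 1 P := by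
    intro P
    apply Subtype.ext
    funext τ
    rw [thetaHol_apply, thetaHol_apply, Theta_rename_dInc, Theta_smul_of_mem N r.2, one_smul]
  rw [map_div₀, map_div₀, map_div₀, alpha_evF, alpha_evF, embAt_evF, embAt_evF, embAt_evF,
    embAt_evF, key, key]

/-- Distinct cosets give distinct embeddings. -/
theorem mem_of_embAt_eq (M : ℕ) [NeZero M] (τ₀ : ℍ) {g g' : SL(2, ℤ)}
    (h : embAt M τ₀ g = embAt M τ₀ g') : g * g'⁻¹ ∈ Gamma0 M := by
  have h1 := DFunLike.congr_fun h (evF M (MvPolynomial.X (topDiv M)))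
  rw [embAt_evF, embAt_evF] at h1
  have h2 := congrArg Subtype.val (laurentHom_injective τ₀ h1)
  have h3 : (QuotientGroup.mk g⁻¹ : XX M) = QuotientGroup.mk g'⁻¹ := transl_injective M h2
  have h4 := QuotientGroup.eq.mp h3
  rwa [inv_inv] at h4

/-! ### The norm along `α` -/

/-- **Norm along the inclusion `α : F_N → F_{Nℓ}`, Taylor form.** -/
theorem embAt_norm_alpha (hℓ : ℓ.Prime) (hℓN : ¬ ℓ ∣ N) (τ₀ : ℍ) (g : FF (N * ℓ)) :
    embAt N τ₀ 1 (letI := algebraAlong (heckeAlphaBar Kbar N ℓ); Algebra.norm (FF N) g)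
      = ∏ k, embAt (N * ℓ) τ₀ ((cor1Elt hℓ hℓN k : Gamma0 N) : SL(2, ℤ)) g := by
  let _ : Algebra (FF N) (FF (N * ℓ)) := algebraAlong (heckeAlphaBar Kbar N ℓ)
  have : Module.Finite (FF N) (FF (N * ℓ)) := Fermat.Agent.S37.H87.finiteAlong_alpha N ℓ
  have hcard : Fintype.card (Option (Fin ℓ)) = Module.finrank (FF N) (FF (N * ℓ)) := by
    rw [Fintype.card_option, Fintype.card_fin]
    exact (Fermat.Agent.S37.H87.finrankAlong_alpha_prime N ℓ hℓ hℓN).symm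
  refine norm_eq_prod_of_ringHom (embAt N τ₀ 1)
    (fun k => embAt (N * ℓ) τ₀ ((cor1Elt hℓ hℓN k : Gamma0 N) : SL(2, ℤ)))
    (fun k c => embAt_alpha τ₀ _ c) ?_ hcard g
  intro k m hkm
  have hmem := mem_of_embAt_eq (N * ℓ) τ₀ hkm
  apply (isCorrSys_cor1 hℓ hℓN).uniq k m ⟨_, hmem⟩
  rw [← mat_cor1Elt hℓ hℓN k, ← mat_cor1Elt hℓ hℓN m]
  show ((cor1Elt hℓ hℓN k : Gamma0 N) : Matrix (Fin 2) (Fin 2) ℤ)
    = (((cor1Elt hℓ hℓN k : Gamma0 N) : SL(2, ℤ)) * ((cor1Elt hℓ hℓN m : Gamma0 N) : SL(2, ℤ))⁻¹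
        : SL(2, ℤ)) * ((cor1Elt hℓ hℓN m : Gamma0 N) : Matrix (Fin 2) (Fin 2) ℤ)
  rw [← Matrix.SpecialLinearGroup.coe_mul, inv_mul_cancel_right]

/-- **Norm along the inclusion `α : F_N → F_{Nℓ}`, analytic form**: for `g = P / Q` in
`F_{Nℓ}` with `N_α g = A / B`, the function `Θ(A)/Θ(B)` is the product of the translates of
`Θ(P)/Θ(Q)` by the representatives `r_k` of `Γ₀(Nℓ) \ Γ₀(N)` (cross-multiplied). -/
theorem Theta_norm_alpha (hℓ : ℓ.Prime) (hℓN : ¬ ℓ ∣ N) (P Q : MvPolynomial ((N * ℓ).divisors) Kbar)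
    (A B : MvPolynomial (N.divisors) Kbar) (hQ : evF (N * ℓ) Q ≠ 0) (hB : evF N B ≠ 0)
    (h : (letI := algebraAlong (heckeAlphaBar Kbar N ℓ);
      Algebra.norm (FF N) (evF (N * ℓ) P / evF (N * ℓ) Q)) = evF N A / evF N B) (τ : ℍ) :
    Theta N A τ * ∏ k, Theta (N * ℓ) Q (((cor1Elt hℓ hℓN k : Gamma0 N) : SL(2, ℤ)) • τ)
      = Theta N B τ * ∏ k, Theta (N * ℓ) P (((cor1Elt hℓ hℓN k : Gamma0 N) : SL(2, ℤ)) • τ) := by
  have key := embAt_norm_alpha hℓ hℓN τ (evF (N * ℓ) P / evF (N * ℓ) Q)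
  rw [h] at key
  simp only [map_div₀, embAt_evF] at key
  rw [Finset.prod_div_distrib, ← map_prod, ← map_prod] at key
  have hb : laurentHom τ (thetaHol N 1 B) ≠ 0 := fun h0 =>
    hB ((laurentHom_thetaHol_eq_zero_iff N τ 1 B).mp h0)
  have hq : laurentHom τ (∏ k, thetaHol (N * ℓ) ((cor1Elt hℓ hℓN k : Gamma0 N) : SL(2, ℤ)) Q)
      ≠ 0 := by
    rw [map_prod]
    exact Finset.prod_ne_zero_iff.mpr fun k _ h0 =>
      hQ ((laurentHom_thetaHol_eq_zero_iff (N * ℓ) τ _ Q).mp h0)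
  rw [div_eq_div_iff hb hq, ← map_mul, ← map_mul] at key
  have key2 := congrFun (congrArg Subtype.val (laurentHom_injective τ key)) τ
  simp only [Subring.coe_mul, Pi.mul_apply, SubmonoidClass.coe_finset_prod, Finset.prod_apply,
    thetaHol_apply, one_smul] at key2
  rw [key2, mul_comm]

/-! ### Matching the representatives `diag(ℓ, 1) r_k` with those of `T_ℓ` -/

theorem levelMul_eq_famT_none (hℓ : ℓ.Prime) (σ : ℍ) : levelMul ℓ σ = famT ℓ none • σ := by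
  apply UpperHalfPlane.ext
  rw [famT_none, ModularForm.coe_heckeDiagMatrix_smul hℓ.ne_zero]
  rfl

/-- For a `Γ₀(N)`-invariant function `F`, the product of `F (ℓ · r_k τ)` over the representatives
`r_k` of `Γ₀(Nℓ) \ Γ₀(N)` is the product over the representatives of `T_ℓ`. -/
theorem prod_levelMul_cor1 (hℓ : ℓ.Prime) (hℓN : ¬ ℓ ∣ N) (F : ℍ → ℂ)
    (hF : ∀ γ : SL(2, ℤ), γ ∈ Gamma0 N → ∀ τ : ℍ, F (γ • τ) = F τ) (τ : ℍ) :
    ∏ k, F (levelMul ℓ (((cor1Elt hℓ hℓN k : Gamma0 N) : SL(2, ℤ)) • τ)) = ∏ i, F (famT ℓ i • τ) := by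
  have huniq : ∀ (k m : Option (Fin ℓ)) (g : Gamma0 N),
      alphaT ℓ none * mat (cor1Elt hℓ hℓN k) = mat g * (alphaT ℓ none * mat (cor1Elt hℓ hℓN m)) →
        k = m := by
    intro k m g hg
    set s : Gamma0 N := cor1Elt hℓ hℓN k * (cor1Elt hℓ hℓN m)⁻¹ with hs
    have h1 : alphaT ℓ none * mat s = mat g * alphaT ℓ none := by
      have e : mat s = mat (cor1Elt hℓ hℓN k) * mat (cor1Elt hℓ hℓN m)⁻¹ := by
        rw [hs, mat_mul]
      rw [e, ← Matrix.mul_assoc, hg, Matrix.mul_assoc, Matrix.mul_assoc, ← mat_mul,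
        mul_inv_cancel, mat_one, Matrix.mul_one]
    have h10 := congrFun (congrFun h1 1) 0
    have e1 : (alphaT ℓ none * mat s) 1 0 = mat s 1 0 := by
      simp [alphaT, alphaInf, Matrix.mul_apply, Fin.sum_univ_two]
    have e2 : (mat g * alphaT ℓ none) 1 0 = mat g 1 0 * ℓ := by
      simp [alphaT, alphaInf, Matrix.mul_apply, Fin.sum_univ_two]
    rw [e1, e2] at h10
    have hNq : ((N * ℓ : ℕ) : ℤ) ∣ mat s 1 0 := by
      push_cast
      exact (isCoprime_natCast hℓ hℓN).mul_dvd (dvd_mat_10 s) ⟨mat g 1 0, by rw [h10]; ring⟩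
    apply (isCorrSys_cor1 hℓ hℓN).uniq k m ⟨s.1, (mem_Gamma0_iff_dvd _).mpr hNq⟩
    show famCor1 N ℓ k = mat s * famCor1 N ℓ m
    rw [← mat_cor1Elt hℓ hℓN k, ← mat_cor1Elt hℓ hℓN m, ← mat_mul, hs, inv_mul_cancel_right]
  obtain ⟨π, t, hπ⟩ := exists_equiv_of_reps
    (isCorrSys_of_isHeckeSys (isHeckeSys_T (N := N) hℓ hℓN)) none (cor1Elt hℓ hℓN)
    (α := fun k => alphaT ℓ none * mat (cor1Elt hℓ hℓN k)) (fun k => rfl) huniq rfl
  rw [← Equiv.prod_comp π (fun i => F (famT ℓ i • τ))]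
  refine Finset.prod_congr rfl fun k _ => ?_
  have hrel : alphaT ℓ none * mat (cor1Elt hℓ hℓN k) = mat (t k)⁻¹ * alphaT ℓ (π k) := by
    rw [hπ k, ← Matrix.mul_assoc, mat_inv_mul, Matrix.one_mul]
  have hact := act_rel_of_matrix_rel (gl_rel_of_int_rel (coe_famT_eq_map hℓ.ne_zero none)
    (coe_famT_eq_map hℓ.ne_zero (π k)) hrel) τ
  rw [levelMul_eq_famT_none hℓ, hact, hF _ (t k)⁻¹.2]

/-- **(H-norm), analytic form.**  For `u = A / B` in `F_N` and `N_α(β u) = A' / B'` (the function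
whose divisor is `T_ℓ (div u)`), `Θ(A')/Θ(B') = heckeProd (Θ(A)/Θ(B))`, i.e.
`Θ(N_α(β u))(τ) = Θ(u)(ℓ τ) ∏_{j<ℓ} Θ(u)((τ + j)/ℓ)` (cross-multiplied). -/
theorem Theta_norm_beta (hℓ : ℓ.Prime) (hℓN : ¬ ℓ ∣ N) (A B A' B' : MvPolynomial (N.divisors) Kbar)
    (hB : evF N B ≠ 0) (hB' : evF N B' ≠ 0)
    (h : (letI := algebraAlong (heckeAlphaBar Kbar N ℓ);
      Algebra.norm (FF N) (heckeBetaBar Kbar N ℓ (evF N A / evF N B))) = evF N A' / evF N B')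
    (τ : ℍ) :
    Theta N A' τ * heckeProd N ⟨ℓ, hℓ⟩ (Theta N B) τ
      = Theta N B' τ * heckeProd N ⟨ℓ, hℓ⟩ (Theta N A) τ := by
  have hQ : evF (N * ℓ) (MvPolynomial.rename (dMul N ℓ) B) ≠ 0 := by
    rw [← beta_evF]
    exact (map_ne_zero _).mpr hB
  rw [map_div₀, beta_evF, beta_evF] at h
  have key := Theta_norm_alpha hℓ hℓN _ _ A' B' hQ hB' h τ
  simp only [Theta_rename_dMul] at key
  rw [prod_levelMul_cor1 hℓ hℓN (Theta N B) (fun γ hγ σ => Theta_smul_of_mem N hγ B σ),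
    prod_levelMul_cor1 hℓ hℓN (Theta N A) (fun γ hγ σ => Theta_smul_of_mem N hγ A σ)] at key
  rw [heckeProd_of_not_dvd (ℓ := ⟨ℓ, hℓ⟩) hℓN, heckeProd_of_not_dvd (ℓ := ⟨ℓ, hℓ⟩) hℓN]
  exact key

/-! ### Consequence for holomorphic `p`-th roots -/

/-- Holomorphic functions on the upper half plane have no zero divisors. -/
theorem holSubring_eq_zero_or_eq_zero {f g : holSubring} (h : f * g = 0) : f = 0 ∨ g = 0 := by
  have h1 : laurentHom UpperHalfPlane.I f * laurentHom UpperHalfPlane.I g = 0 := by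
    rw [← map_mul, h, map_zero]
  rcases mul_eq_zero.mp h1 with h2 | h2
  · exact Or.inl (laurentHom_injective UpperHalfPlane.I (by rw [h2, map_zero]))
  · exact Or.inr (laurentHom_injective UpperHalfPlane.I (by rw [h2, map_zero]))

omit [NeZero ℓ] in
theorem mdiff_comp_famT {W : ℍ → ℂ} (hW : MDiff W) (i : Option (Fin ℓ)) :
    MDiff (fun τ : ℍ => W (famT ℓ i • τ)) := by
  cases i with
  | none =>
    exact hW.comp (UpperHalfPlane.mdifferentiable_smul (ModularForm.det_heckeDiagMatrix_pos ℓ))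
  | some j =>
    exact hW.comp (UpperHalfPlane.mdifferentiable_smul (ModularForm.det_heckeMatrix_pos ℓ j))

/-- The Hecke product of a holomorphic function, as an element of `holSubring`. -/
theorem heckeProd_eq_coe_prod (hℓ : ℓ.Prime) (hℓN : ¬ ℓ ∣ N) {W : ℍ → ℂ} (hW : MDiff W) :
    heckeProd N ⟨ℓ, hℓ⟩ W
      = ((∏ i, (⟨fun τ : ℍ => W (famT ℓ i • τ), mdiff_comp_famT hW i⟩ : holSubring)
          : holSubring) : ℍ → ℂ) := by
  funext τ
  rw [heckeProd_of_not_dvd (ℓ := ⟨ℓ, hℓ⟩) hℓN]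
  simp only [SubmonoidClass.coe_finset_prod, Finset.prod_apply]

theorem mdiff_heckeProd (hℓ : ℓ.Prime) (hℓN : ¬ ℓ ∣ N) {W : ℍ → ℂ} (hW : MDiff W) :
    MDiff (heckeProd N ⟨ℓ, hℓ⟩ W) := by
  rw [heckeProd_eq_coe_prod hℓ hℓN hW]
  exact (∏ i, (⟨fun τ : ℍ => W (famT ℓ i • τ), mdiff_comp_famT hW i⟩ : holSubring)).2

theorem heckeProd_ne_zero (hℓ : ℓ.Prime) (hℓN : ¬ ℓ ∣ N) {F : ℍ → ℂ} (hF : MDiff F)
    (hF0 : F ≠ 0) : heckeProd N ⟨ℓ, hℓ⟩ F ≠ 0 := by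
  intro h0
  rw [heckeProd_eq_coe_prod hℓ hℓN hF] at h0
  have h1 : (∏ i, (⟨fun τ : ℍ => F (famT ℓ i • τ), mdiff_comp_famT hF i⟩ : holSubring)) = 0 :=
    Subtype.ext h0
  have h2 := congrArg (laurentHom UpperHalfPlane.I) h1
  rw [map_prod, map_zero] at h2
  obtain ⟨i, -, hi⟩ := Finset.prod_eq_zero_iff.mp h2
  have h3 : (⟨fun τ : ℍ => F (famT ℓ i • τ), mdiff_comp_famT hF i⟩ : holSubring) = 0 :=
    laurentHom_injective UpperHalfPlane.I (by rw [hi, map_zero])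
  apply hF0
  funext σ
  have h4 := congrFun (congrArg Subtype.val h3) ((famT ℓ i)⁻¹ • σ)
  simpa using h4

/-- **(H-root)**: if `W` is a holomorphic `p`-th root of `c · Θ(u)`, `u = A / B`, then
`heckeProd W` is a holomorphic `p`-th root of `c^(ℓ+1) · Θ(N_α(β u))`. -/
theorem heckeProd_pow (hℓ : ℓ.Prime) (hℓN : ¬ ℓ ∣ N) (A B A' B' : MvPolynomial (N.divisors) Kbar)
    (hB : evF N B ≠ 0) (hB' : evF N B' ≠ 0)
    (h : (letI := algebraAlong (heckeAlphaBar Kbar N ℓ);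
      Algebra.norm (FF N) (heckeBetaBar Kbar N ℓ (evF N A / evF N B))) = evF N A' / evF N B')
    {W : ℍ → ℂ} (hW : MDiff W) {p : ℕ} {c : ℂ}
    (hWp : ∀ τ : ℍ, W τ ^ p * Theta N B τ = c * Theta N A τ) (τ : ℍ) :
    heckeProd N ⟨ℓ, hℓ⟩ W τ ^ p * Theta N B' τ = c ^ (ℓ + 1) * Theta N A' τ := by
  have h1 : ∀ σ : ℍ, heckeProd N ⟨ℓ, hℓ⟩ W σ ^ p * heckeProd N ⟨ℓ, hℓ⟩ (Theta N B) σ
      = c ^ (ℓ + 1) * heckeProd N ⟨ℓ, hℓ⟩ (Theta N A) σ := by
    intro σ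
    rw [heckeProd_of_not_dvd (ℓ := ⟨ℓ, hℓ⟩) hℓN, heckeProd_of_not_dvd (ℓ := ⟨ℓ, hℓ⟩) hℓN,
      heckeProd_of_not_dvd (ℓ := ⟨ℓ, hℓ⟩) hℓN, ← Finset.prod_pow, ← Finset.prod_mul_distrib]
    simp_rw [hWp]
    rw [Finset.prod_mul_distrib, Finset.prod_const, Finset.card_univ, Fintype.card_option,
      Fintype.card_fin]
  have h2 := Theta_norm_beta hℓ hℓN A B A' B' hB hB' h
  have hΘB : Theta N B ≠ 0 := fun h0 => hB ((Theta_eq_zero_iff N B).mp h0)
  have hHB := heckeProd_ne_zero hℓ hℓN (mdiff_Theta N B) hΘB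
  set G : holSubring :=
    ⟨heckeProd N ⟨ℓ, hℓ⟩ W, mdiff_heckeProd hℓ hℓN hW⟩ ^ p * ⟨Theta N B', mdiff_Theta N B'⟩
      - ⟨fun _ => c ^ (ℓ + 1), mdifferentiable_const⟩ * ⟨Theta N A', mdiff_Theta N A'⟩ with hG
  set H : holSubring :=
    ⟨heckeProd N ⟨ℓ, hℓ⟩ (Theta N B), mdiff_heckeProd hℓ hℓN (mdiff_Theta N B)⟩ with hH
  have hGH : G * H = 0 := by
    apply Subtype.ext
    funext σ
    show (heckeProd N ⟨ℓ, hℓ⟩ W σ ^ p * Theta N B' σ - c ^ (ℓ + 1) * Theta N A' σ)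
      * heckeProd N ⟨ℓ, hℓ⟩ (Theta N B) σ = 0
    linear_combination Theta N B' σ * h1 σ - c ^ (ℓ + 1) * h2 σ
  rcases holSubring_eq_zero_or_eq_zero hGH with h0 | h0
  · have h3 := congrFun (congrArg Subtype.val h0) τ
    exact sub_eq_zero.mp h3
  · exact absurd (congrArg Subtype.val h0) hHB

end Fermat.Agent.S29.H15
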